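import Mathlib.Algebra.BigOperators.Fin
import Mathlib.Data.Fin.Tuple.Basic
import Mathlib.Tactic

/-!
# Sums of powers (helper56)

`SP e k n`: the natural number `n` is a sum of `k` `e`-th powers of natural numbers.
-/

set_option autoImplicit false

namespace Fermat.Agent.Cor.Waring

/-- `n` is a sum of `k` `e`-th powers of natural numbers. -/
def SP (e k n : ℕ) : Prop := ∃ f : Fin k → ℕ, ∑ i, f i ^ e = n

theorem SP.add {e k j n m : ℕ} (h : SP e k n) (h' : SP e j m) : SP e (k + j) (n + m) := by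
  obtain ⟨f, hf⟩ := h
  obtain ⟨g, hg⟩ := h'
  refine ⟨Fin.append f g, ?_⟩
  rw [Fin.sum_univ_add]
  simp [hf, hg]

theorem SP.single (e a : ℕ) : SP e 1 (a ^ e) := ⟨fun _ => a, by simp⟩

theorem SP.zero {e : ℕ} (he : e ≠ 0) (k : ℕ) : SP e k 0 := ⟨fun _ => 0, by simp [he]⟩

theorem SP.mono {e k j n : ℕ} (he : e ≠ 0) (h : SP e k n) (hkj : k ≤ j) : SP e j n := by
  obtain ⟨i, rfl⟩ := Nat.exists_eq_add_of_le hkj
  have := h.add (SP.zero he i)
  rwa [add_zero] at this

/-- `r` ones. -/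
theorem SP.ones (e r : ℕ) : SP e r r := ⟨fun _ => 1, by simp⟩

/-- Multiplication by an `e`-th power. -/
theorem SP.mul {e k n : ℕ} (h : SP e k n) (a : ℕ) : SP e k (a ^ e * n) := by
  obtain ⟨f, hf⟩ := h
  exact ⟨fun i => a * f i, by simp only [mul_pow, ← Finset.mul_sum, hf]⟩

/-- Two powers. -/
theorem SP.two (e a b : ℕ) : SP e 2 (a ^ e + b ^ e) := (SP.single e a).add (SP.single e b)

end Fermat.Agent.Cor.Waring
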