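import Fermat.Agent.Corollaries.Waring.Table
import Fermat.Agent.Corollaries.ThreeSq.Forms
import Mathlib.GroupTheory.OrderOfElement
import Mathlib.Data.ZMod.Units
import Mathlib.FieldTheory.Finite.Basic

/-!
# Waring's problem for cubes: `g(3) = 9` (Wieferich 1909, Kempner 1912) (helper56)

`sum_nine_cubes`: every natural number is a sum of nine cubes of natural numbers;
`not_sum_eight_cubes`: `23` is not a sum of eight.

The proof follows Wieferich and Kempner (Nathanson, *Additive Number Theory*, chapter 2), with the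
three squares theorem as the main input and a table in the kernel for small numbers.
-/

set_option autoImplicit false

namespace Fermat.Agent.Cor.Waring

/-- `6 A (A² + m)` is a sum of six cubes if `m ≤ A²` is a sum of three squares. -/
theorem six_cubes {A m : ℕ} (hm : m ≤ A ^ 2) (h : ∃ x y z : ℕ, x ^ 2 + y ^ 2 + z ^ 2 = m) :
    SP 3 6 (6 * A * (A ^ 2 + m)) := by
  obtain ⟨x, y, z, h⟩ := h
  have hx : x ≤ A := le_of_not_gt fun hlt => by nlinarith
  have hy : y ≤ A := le_of_not_gt fun hlt => by nlinarith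
  have hz : z ≤ A := le_of_not_gt fun hlt => by nlinarith
  have pair : ∀ t, t ≤ A → SP 3 2 (2 * A ^ 3 + 6 * A * t ^ 2) := by
    intro t ht
    have h1 := SP.two 3 (A + t) (A - t)
    have e : (A + t) ^ 3 + (A - t) ^ 3 = 2 * A ^ 3 + 6 * A * t ^ 2 := by
      zify [ht]
      ring
    rwa [e] at h1
  have h2 := ((pair x hx).add (pair y hy)).add (pair z hz)
  have e : 2 * A ^ 3 + 6 * A * x ^ 2 + (2 * A ^ 3 + 6 * A * y ^ 2) +
      (2 * A ^ 3 + 6 * A * z ^ 2) = 6 * A * (A ^ 2 + m) := by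
    rw [← h]; ring
  rwa [e] at h2

/-- If `m` is not `≡ 0, 7, 12, 15` modulo `16`, it is a sum of three squares. -/
theorem three_squares_of_mod {m : ℕ} (h0 : m % 16 ≠ 0) (h7 : m % 16 ≠ 7) (h12 : m % 16 ≠ 12)
    (h15 : m % 16 ≠ 15) : ∃ x y z : ℕ, x ^ 2 + y ^ 2 + z ^ 2 = m := by
  rw [ThreeSq.sum_three_squares_nat_iff]
  rintro a b hab
  rcases a with _ | _ | a
  · omega
  · omega
  · have h1 : m = 16 * (4 ^ a * (8 * b + 7)) := by
      rw [hab, pow_add]; ring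
    omega

theorem tab_mod : ∀ r < 96, ∃ d < 23, ∃ g < 16, g ≠ 0 ∧ g ≠ 7 ∧ g ≠ 12 ∧ g ≠ 15 ∧
    (d ^ 3 + 6 * g) % 96 = r := by
  decide +kernel

/-- Every `22³ ≤ r` is `d³ + 6 m` with `m` a sum of three squares. -/
theorem exists_cube_add {r : ℕ} (hr : 10648 ≤ r) :
    ∃ d m : ℕ, r = d ^ 3 + 6 * m ∧ ∃ x y z : ℕ, x ^ 2 + y ^ 2 + z ^ 2 = m := by
  obtain ⟨d, hd, g, hg, h0, h7, h12, h15, h⟩ := tab_mod (r % 96) (Nat.mod_lt _ (by norm_num))
  have hd3 : d ^ 3 ≤ 22 ^ 3 := Nat.pow_le_pow_left (by omega) 3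
  norm_num at hd3
  obtain ⟨t, ht⟩ : ∃ t, r = d ^ 3 + 6 * g + 96 * t := by
    generalize d ^ 3 = D at h hd3 ⊢
    exact ⟨(r - D) / 96, by omega⟩
  exact ⟨d, g + 16 * t, by omega, three_squares_of_mod (by omega) (by omega) (by omega) (by omega)⟩

/-- Every odd number is a cube modulo `2 ^ t`. -/
theorem exists_cube_mod {t w : ℕ} (hw : Odd w) : ∃ b < 2 ^ t, b ^ 3 ≡ w [MOD 2 ^ t] := by
  have : NeZero (2 ^ t) := ⟨by positivity⟩
  have hcop : w.Coprime (2 ^ t) := Nat.Coprime.pow_right t (Nat.coprime_two_right.2 hw)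
  have hcard : (Nat.card (ZMod (2 ^ t))ˣ).Coprime 3 := by
    rw [Nat.card_eq_fintype_card, ZMod.card_units_eq_totient]
    rcases t with _ | t
    · simp
    · rw [Nat.totient_prime_pow_succ Nat.prime_two]
      exact (Nat.Coprime.pow_left t (by norm_num)).mul_left (by norm_num)
  obtain ⟨v, hv⟩ := (powCoprime hcard).surjective (ZMod.unitOfCoprime w hcop)
  refine ⟨(v : ZMod (2 ^ t)).val, ZMod.val_lt _, ?_⟩
  rw [← ZMod.natCast_eq_natCast_iff]
  have h1 := congrArg (Units.val) hv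
  rw [ZMod.coe_unitOfCoprime] at h1
  rw [← h1, Nat.cast_pow, ZMod.natCast_zmod_val]
  rfl

/-- The integral cube root. -/
theorem exists_root (n : ℕ) : ∃ i : ℕ, i ^ 3 ≤ n ∧ n < (i + 1) ^ 3 := by
  classical
  have hex : ∃ i : ℕ, n < (i + 1) ^ 3 := ⟨n, by nlinarith [Nat.zero_le n, sq_nonneg (n : ℕ)]⟩
  obtain ⟨i, hi, hmin⟩ : ∃ i : ℕ, n < (i + 1) ^ 3 ∧ ∀ j < i, ¬ n < (j + 1) ^ 3 :=
    ⟨Nat.find hex, Nat.find_spec hex, fun j hj => Nat.find_min hex hj⟩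
  refine ⟨i, ?_, hi⟩
  rcases i with _ | i
  · simp
  · exact not_lt.1 (hmin i (by omega))

/-- The main range: `8 A³ < N < 4096 A³` with `A = 8 ^ k`, `3 ≤ k`. -/
theorem nine_of_range {k N : ℕ} (hk : 3 ≤ k) (h1 : 8 * (8 ^ k) ^ 3 < N)
    (h2 : N < 4096 * (8 ^ k) ^ 3) : SP 3 9 N := by
  obtain ⟨A, hA⟩ : ∃ A, A = 8 ^ k := ⟨_, rfl⟩
  rw [← hA] at h1 h2
  have hA512 : 512 ≤ A := by
    rw [hA]
    calc 512 = 8 ^ 3 := by norm_num
      _ ≤ 8 ^ k := Nat.pow_le_pow_right (by norm_num) hk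
  have hA2 : 512 * 512 ≤ A ^ 2 := by nlinarith
  have hA3 : 512 * A ^ 2 ≤ A ^ 3 := by
    have : A ^ 3 = A * A ^ 2 := by ring
    rw [this]
    exact Nat.mul_le_mul_right _ hA512
  -- the first cube
  obtain ⟨i, hi1, hi2⟩ := exists_root (N - 8 * A ^ 3)
  have hi0 : i ≠ 0 := by
    rintro rfl
    norm_num at hi2
    omega
  obtain ⟨j, rfl⟩ : ∃ j, i = j + 1 := ⟨i - 1, by omega⟩
  have hj : j + 1 < 16 * A := by
    have h3 : (j + 1) ^ 3 < (16 * A) ^ 3 := by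
      have : (16 * A) ^ 3 = 4096 * A ^ 3 := by ring
      omega
    exact lt_of_pow_lt_pow_left₀ 3 (by positivity) h3
  have e1 : (j + 1 + 1) ^ 3 = j ^ 3 + (6 * j ^ 2 + 12 * j + 8) := by ring
  have e2 : (j + 1) ^ 3 = j ^ 3 + (3 * j ^ 2 + 3 * j + 1) := by ring
  have hj2 : 6 * j ^ 2 + 12 * j + 8 ≤ 3 * A ^ 3 := by nlinarith
  obtain ⟨a, w, hN, hw, hw1, hw2⟩ : ∃ a w, N = a ^ 3 + w ∧ Odd w ∧ 8 * A ^ 3 ≤ w ∧
      w < 11 * A ^ 3 := by
    rcases Nat.even_or_odd (N - (j + 1) ^ 3) with h3 | h3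
    · refine ⟨j, N - j ^ 3, by omega, ?_, by omega, by omega⟩
      have h4 : N - j ^ 3 = N - (j + 1) ^ 3 + (3 * (j * (j + 1)) + 1) := by
        have : 3 * (j * (j + 1)) = 3 * j ^ 2 + 3 * j := by ring
        omega
      rw [h4]
      exact h3.add_odd ((Nat.even_mul_succ_self j).mul_left 3).add_one
    · exact ⟨j + 1, N - (j + 1) ^ 3, by omega, h3, by omega, by omega⟩
  -- the second cube
  obtain ⟨b, hb, hbw⟩ := exists_cube_mod (t := 3 * k) hw
  have hA' : 2 ^ (3 * k) = A := by rw [hA, pow_mul]; norm_num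
  rw [hA'] at hb hbw
  have hb3 : b ^ 3 < A ^ 3 := Nat.pow_lt_pow_left hb (by norm_num)
  obtain ⟨q, hq⟩ := (Nat.modEq_iff_dvd' (by omega : b ^ 3 ≤ w)).1 hbw
  have hwq : w = b ^ 3 + A * q := by omega
  have hq1 : 7 * A ^ 2 < q := by
    have h3 : A * (7 * A ^ 2) < A * q := by
      have : A * (7 * A ^ 2) = 7 * A ^ 3 := by ring
      omega
    exact Nat.lt_of_mul_lt_mul_left h3
  have hq2 : q < 11 * A ^ 2 := by
    have h3 : A * q < A * (11 * A ^ 2) := by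
      have : A * (11 * A ^ 2) = 11 * A ^ 3 := by ring
      omega
    exact Nat.lt_of_mul_lt_mul_left h3
  -- the third cube
  obtain ⟨d, m, hdm, hsq⟩ := exists_cube_add (r := q - 6 * A ^ 2) (by omega)
  have hm : m ≤ A ^ 2 := by omega
  have h6 := six_cubes hm hsq
  have h9 := ((SP.two 3 a b).add (SP.single 3 (2 ^ k * d))).add h6
  have e3 : a ^ 3 + b ^ 3 + (2 ^ k * d) ^ 3 + 6 * A * (A ^ 2 + m) = N := by
    have h3 : (2 ^ k * d) ^ 3 = A * d ^ 3 := by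
      rw [mul_pow, ← pow_mul, mul_comm k 3, hA']
    have h4 : q = 6 * A ^ 2 + (d ^ 3 + 6 * m) := by omega
    rw [hN, hwq, h3, h4]
    ring
  rwa [e3] at h9

/-- One greedy step. -/
theorem greedy {N : ℕ} (c : ℕ) (h1 : 8043 ≤ N) (h2 : N < 8043 + (c + 1) ^ 3) :
    ∃ a M, N = a ^ 3 + M ∧ 8043 ≤ M ∧ M < 8043 + (3 * c ^ 2 + 3 * c + 1) := by
  obtain ⟨a, ha1, ha2⟩ := exists_root (N - 8043)
  have hac : a ≤ c := by
    have h3 : a ^ 3 < (c + 1) ^ 3 := by omega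
    have h4 := lt_of_pow_lt_pow_left₀ 3 (Nat.zero_le _) h3
    omega
  have e : (a + 1) ^ 3 = a ^ 3 + (3 * a ^ 2 + 3 * a + 1) := by ring
  have h5 : 3 * a ^ 2 + 3 * a + 1 ≤ 3 * c ^ 2 + 3 * c + 1 := by nlinarith
  exact ⟨a, N - a ^ 3, by omega, by omega, by omega⟩

/-- Numbers below `8 ^ 10`. -/
theorem nine_of_lt_pow {N : ℕ} (h : N < 8 ^ 10) : SP 3 9 N := by
  by_cases h0 : N < 8043
  · exact nine_of_lt h0
  obtain ⟨a, M, rfl, hM1, hM2⟩ := greedy (N := N) 1023 (by omega) (by norm_num at h ⊢; omega)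
  obtain ⟨b, L, rfl, hL1, hL2⟩ := greedy (N := M) 146 hM1 (by norm_num at hM2 ⊢; omega)
  obtain ⟨c, K, rfl, hK1, hK2⟩ := greedy (N := L) 40 hL1 (by norm_num at hL2 ⊢; omega)
  have h6 := six_of_mem hK1 (by norm_num at hK2; exact hK2)
  have h9 := ((SP.two 3 a b).add (SP.single 3 c)).add h6
  have e : a ^ 3 + b ^ 3 + c ^ 3 + K = a ^ 3 + (b ^ 3 + (c ^ 3 + K)) := by ring
  rwa [e] at h9

theorem nine_all (N : ℕ) : SP 3 9 N := by
  classical
  by_cases h : N < 8 ^ 10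
  · exact nine_of_lt_pow h
  push Not at h
  have hex : ∃ j : ℕ, N < 4096 * (8 ^ (j + 3)) ^ 3 := by
    refine ⟨N, ?_⟩
    have h1 : N < 8 ^ (N + 3) :=
      (Nat.lt_pow_self (by norm_num : 1 < 8)).trans_le (Nat.pow_le_pow_right (by norm_num) (by omega))
    have h2 : 8 ^ (N + 3) ≤ (8 ^ (N + 3)) ^ 3 := Nat.le_self_pow (by norm_num) _
    omega
  obtain ⟨j, hj, hmin⟩ : ∃ j : ℕ, N < 4096 * (8 ^ (j + 3)) ^ 3 ∧
      ∀ i < j, ¬ N < 4096 * (8 ^ (i + 3)) ^ 3 :=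
    ⟨Nat.find hex, Nat.find_spec hex, fun i hi => Nat.find_min hex hi⟩
  have hle : 8 * (8 ^ (j + 3)) ^ 3 ≤ N := by
    rcases j with _ | j
    · norm_num at h ⊢; exact h
    · have h3 := not_lt.1 (hmin j (by omega))
      have e : 8 * (8 ^ (j + 1 + 3)) ^ 3 = 4096 * (8 ^ (j + 3)) ^ 3 := by
        rw [show j + 1 + 3 = (j + 3) + 1 by ring, pow_succ 8 (j + 3)]
        ring
      rwa [e]
  rcases hle.eq_or_lt with h3 | h3
  · have h4 := SP.single 3 (2 * 8 ^ (j + 3))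
    have e : (2 * 8 ^ (j + 3)) ^ 3 = N := by rw [← h3]; ring
    rw [e] at h4
    exact h4.mono (by norm_num) (by norm_num)
  · exact nine_of_range (by omega) h3 hj

/-- **Waring's problem for cubes** (Wieferich 1909, Kempner 1912): every natural number is a sum of
nine cubes of natural numbers. -/
theorem sum_nine_cubes (n : ℕ) : ∃ f : Fin 9 → ℕ, ∑ i, f i ^ 3 = n := nine_all n

/-- `23` is not a sum of eight cubes, so nine is optimal: `g(3) = 9`. -/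
theorem not_sum_eight_cubes : ¬ ∃ f : Fin 8 → ℕ, ∑ i, f i ^ 3 = 23 := by
  rintro ⟨f, hf⟩
  have h2 : ∀ i, f i < 3 := by
    intro i
    by_contra h3
    have h4 : f i ^ 3 ≤ ∑ i, f i ^ 3 :=
      Finset.single_le_sum (f := fun i => f i ^ 3) (fun j _ => Nat.zero_le _) (Finset.mem_univ i)
    have h5 : 3 ^ 3 ≤ f i ^ 3 := Nat.pow_le_pow_left (not_lt.1 h3) 3
    omega
  have h3 : ∀ i, f i ^ 3 = 8 * (if f i = 2 then 1 else 0) + (if f i = 1 then 1 else 0) := by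
    intro i
    have := h2 i
    interval_cases h : f i <;> simp
  have h4 : ∀ i, (if f i = 2 then 1 else 0) + (if f i = 1 then 1 else 0) ≤ 1 := by
    intro i
    split_ifs <;> omega
  have h5 := Finset.sum_le_sum fun i (_ : i ∈ (Finset.univ : Finset (Fin 8))) => h4 i
  rw [Finset.sum_congr rfl fun i _ => h3 i, Finset.sum_add_distrib, ← Finset.mul_sum] at hf
  rw [Finset.sum_add_distrib, Finset.sum_const, Finset.card_univ, Fintype.card_fin] at h5
  simp only [smul_eq_mul, mul_one] at h5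
  omega

end Fermat.Agent.Cor.Waring
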