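import Fermat.Agent.Corollaries.Waring.Cubes
import Mathlib.NumberTheory.SumFourSquares

/-!
# Waring's problem: fourth powers, Euler's lower bound (helper56)

* `isLeast_squares`, `isLeast_cubes`: `g(2) = 4` and `g(3) = 9`;
* `sum_fifty_fourth_powers`: every natural number is a sum of fifty fourth powers (Liouville 1859
  has `53`);
* `euler_lower_bound` (J. A. Euler 1772): `g(e) ≥ 2 ^ e + ⌊(3 / 2) ^ e⌋ - 2`;
* `sum_five_int_cubes`: every integer is a sum of five cubes of integers;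
* `sum_three_rat_cubes`: every rational number is a sum of three cubes of rational numbers
  (Ryley 1825).
-/

set_option autoImplicit false

namespace Fermat.Agent.Cor.Waring

/-- **Euler's lower bound** (J. A. Euler 1772): for `1 ≤ e` the number `2 ^ e * ⌊3 ^ e / 2 ^ e⌋ - 1`
is not a sum of `2 ^ e + ⌊3 ^ e / 2 ^ e⌋ - 3` `e`-th powers. -/
theorem euler_lower_bound {e : ℕ} (he : 1 ≤ e) :
    ¬ ∃ f : Fin (2 ^ e + 3 ^ e / 2 ^ e - 3) → ℕ, ∑ i, f i ^ e = 2 ^ e * (3 ^ e / 2 ^ e) - 1 := by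
  rintro ⟨f, hf⟩
  have hq : 2 ^ e * (3 ^ e / 2 ^ e) ≤ 3 ^ e := Nat.mul_div_le _ _
  have hq1 : 1 ≤ 3 ^ e / 2 ^ e :=
    (Nat.one_le_div_iff (by positivity)).2 (Nat.pow_le_pow_left (by norm_num) e)
  have h2e : 2 ≤ 2 ^ e := by
    calc 2 = 2 ^ 1 := by norm_num
      _ ≤ 2 ^ e := Nat.pow_le_pow_right (by norm_num) he
  generalize hQ : 3 ^ e / 2 ^ e = Q at *
  have hQ2 : 2 ^ e * 1 ≤ 2 ^ e * Q := Nat.mul_le_mul_left _ hq1
  have h2 : ∀ i, f i < 3 := by
    intro i
    by_contra h3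
    have h4 : f i ^ e ≤ ∑ i, f i ^ e :=
      Finset.single_le_sum (f := fun i => f i ^ e) (fun j _ => Nat.zero_le _) (Finset.mem_univ i)
    have h5 : 3 ^ e ≤ f i ^ e := Nat.pow_le_pow_left (not_lt.1 h3) e
    omega
  have h3 : ∀ i, f i ^ e = 2 ^ e * (if f i = 2 then 1 else 0) + (if f i = 1 then 1 else 0) := by
    intro i
    have := h2 i
    interval_cases h : f i
    · simp
      omega
    · simp
    · simp
  have h4 : ∀ i, (if f i = 2 then 1 else 0) + (if f i = 1 then 1 else 0) ≤ 1 := by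
    intro i
    split_ifs <;> omega
  have h5 := Finset.sum_le_sum fun i
    (_ : i ∈ (Finset.univ : Finset (Fin (2 ^ e + Q - 3)))) => h4 i
  rw [Finset.sum_congr rfl fun i _ => h3 i, Finset.sum_add_distrib, ← Finset.mul_sum] at hf
  rw [Finset.sum_add_distrib, Finset.sum_const, Finset.card_univ, Fintype.card_fin] at h5
  simp only [smul_eq_mul, mul_one] at h5
  generalize (∑ i, if f i = 2 then 1 else 0) = E at hf h5
  generalize (∑ i, if f i = 1 then 1 else 0) = U at hf h5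
  generalize 2 ^ e = P at *
  have hE : E < Q := by
    by_contra h6
    have h7 : P * Q ≤ P * E := Nat.mul_le_mul_left _ (not_lt.1 h6)
    omega
  obtain ⟨t, rfl⟩ : ∃ t, Q = E + 1 + t := ⟨Q - E - 1, by omega⟩
  have h6 : P * (E + 1 + t) = P * E + P + P * t := by ring
  have h7 : 2 * t ≤ P * t := Nat.mul_le_mul_right _ h2e
  omega

/-- **`g(2) = 4`**. -/
theorem isLeast_squares : IsLeast {k : ℕ | ∀ n : ℕ, ∃ f : Fin k → ℕ, ∑ i, f i ^ 2 = n} 4 := by
  constructor
  · intro n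
    obtain ⟨a, b, c, d, h⟩ := Nat.sum_four_squares n
    refine ⟨![a, b, c, d], ?_⟩
    simp [Fin.sum_univ_succ]
    omega
  · intro k hk
    by_contra h
    have h1 : SP 2 3 7 := (show SP 2 k 7 from hk 7).mono (by norm_num) (by omega)
    have h2 := euler_lower_bound (e := 2) (by norm_num)
    norm_num at h2
    obtain ⟨f, hf⟩ := h1
    exact h2 f hf

/-- **`g(3) = 9`** (Wieferich, Kempner). -/
theorem isLeast_cubes : IsLeast {k : ℕ | ∀ n : ℕ, ∃ f : Fin k → ℕ, ∑ i, f i ^ 3 = n} 9 := by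
  refine ⟨sum_nine_cubes, fun k hk => ?_⟩
  by_contra h
  exact not_sum_eight_cubes ((show SP 3 k 23 from hk 23).mono (by norm_num) (by omega))

/-! ### Fourth powers -/

theorem pair_fourth (x y : ℕ) : SP 4 2 ((x + y) ^ 4 + ((x : ℤ) - y).natAbs ^ 4) := SP.two 4 _ _

/-- **Liouville's identity** (1859): `6 (x² + y² + z² + w²)²` is a sum of twelve fourth powers. -/
theorem twelve_fourth (x y z w : ℕ) : SP 4 12 (6 * (x ^ 2 + y ^ 2 + z ^ 2 + w ^ 2) ^ 2) := by
  have h := (((((pair_fourth x y).add (pair_fourth x z)).add (pair_fourth x w)).add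
    (pair_fourth y z)).add (pair_fourth y w)).add (pair_fourth z w)
  have e : (x + y) ^ 4 + ((x : ℤ) - y).natAbs ^ 4 + ((x + z) ^ 4 + ((x : ℤ) - z).natAbs ^ 4) +
      ((x + w) ^ 4 + ((x : ℤ) - w).natAbs ^ 4) + ((y + z) ^ 4 + ((y : ℤ) - z).natAbs ^ 4) +
      ((y + w) ^ 4 + ((y : ℤ) - w).natAbs ^ 4) + ((z + w) ^ 4 + ((z : ℤ) - w).natAbs ^ 4) =
      6 * (x ^ 2 + y ^ 2 + z ^ 2 + w ^ 2) ^ 2 := by
    have h4 : Even 4 := by decide
    zify
    rw [h4.pow_abs, h4.pow_abs, h4.pow_abs, h4.pow_abs, h4.pow_abs, h4.pow_abs]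
    ring
  rwa [e] at h

/-- `6 n` is a sum of 48 fourth powers. -/
theorem six_mul_fourth (n : ℕ) : SP 4 48 (6 * n) := by
  have key : ∀ a : ℕ, SP 4 12 (6 * a ^ 2) := by
    intro a
    obtain ⟨x, y, z, w, h⟩ := Nat.sum_four_squares a
    rw [← h]
    exact twelve_fourth x y z w
  obtain ⟨a, b, c, d, h⟩ := Nat.sum_four_squares n
  have h1 := (((key a).add (key b)).add (key c)).add (key d)
  have e : 6 * a ^ 2 + 6 * b ^ 2 + 6 * c ^ 2 + 6 * d ^ 2 = 6 * n := by rw [← h]; ring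
  rwa [e] at h1

theorem fifty_all (N : ℕ) : SP 4 50 N := by
  by_cases h : N < 81
  · have h1 := ((SP.ones 4 (N / 16)).mul 2).add (SP.ones 4 (N % 16))
    have e : 2 ^ 4 * (N / 16) + N % 16 = N := by omega
    rw [e] at h1
    exact h1.mono (by norm_num) (by omega)
  · have key : ∀ a b m : ℕ, 6 * m + (a ^ 4 + b ^ 4) = N → SP 4 50 N := by
      intro a b m hm
      rw [← hm]
      exact (six_mul_fourth m).add (SP.two 4 a b)
    have h6 : N % 6 = 0 ∨ N % 6 = 1 ∨ N % 6 = 2 ∨ N % 6 = 3 ∨ N % 6 = 4 ∨ N % 6 = 5 := by omega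
    rcases h6 with h6 | h6 | h6 | h6 | h6 | h6
    · exact key 0 0 (N / 6) (by norm_num; omega)
    · exact key 1 0 (N / 6) (by norm_num; omega)
    · exact key 1 1 (N / 6) (by norm_num; omega)
    · exact key 3 0 ((N - 81) / 6) (by norm_num; omega)
    · exact key 2 0 ((N - 16) / 6) (by norm_num; omega)
    · exact key 2 1 ((N - 17) / 6) (by norm_num; omega)

/-- **Every natural number is a sum of fifty fourth powers.** -/
theorem sum_fifty_fourth_powers (n : ℕ) : ∃ f : Fin 50 → ℕ, ∑ i, f i ^ 4 = n := fifty_all n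

/-- `79` is not a sum of eighteen fourth powers. -/
theorem not_sum_eighteen_fourth_powers : ¬ ∃ f : Fin 18 → ℕ, ∑ i, f i ^ 4 = 79 := by
  have h := euler_lower_bound (e := 4) (by norm_num)
  norm_num at h
  rintro ⟨f, hf⟩
  exact h f hf

/-! ### Cubes of integers and of rational numbers -/

/-- Every integer is a sum of five cubes of integers. -/
theorem sum_five_int_cubes (n : ℤ) :
    ∃ a b c d e : ℤ, a ^ 3 + b ^ 3 + c ^ 3 + d ^ 3 + e ^ 3 = n := by
  obtain ⟨x, hx⟩ : (6 : ℤ) ∣ n - n ^ 3 := by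
    have h : n % 6 = 0 ∨ n % 6 = 1 ∨ n % 6 = 2 ∨ n % 6 = 3 ∨ n % 6 = 4 ∨ n % 6 = 5 := by omega
    apply Int.dvd_of_emod_eq_zero
    rcases h with h | h | h | h | h | h <;> simp [pow_succ, Int.sub_emod, Int.mul_emod, h]
  exact ⟨n, x + 1, x - 1, -x, -x, by linear_combination -hx⟩

/-- **Ryley 1825**: every rational number is a sum of three cubes of rational numbers. -/
theorem sum_three_rat_cubes (r : ℚ) : ∃ a b c : ℚ, a ^ 3 + b ^ 3 + c ^ 3 = r := by
  have hD : 9 * r ^ 2 + 81 * r + 729 ≠ 0 := by nlinarith [sq_nonneg (2 * r + 9)]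
  refine ⟨(r ^ 3 - 729) / (9 * r ^ 2 + 81 * r + 729),
    (-r ^ 3 + 243 * r + 729) / (9 * r ^ 2 + 81 * r + 729),
    (27 * r ^ 2 + 243 * r) / (9 * r ^ 2 + 81 * r + 729), ?_⟩
  rw [div_pow, div_pow, div_pow, ← add_div, ← add_div, div_eq_iff (pow_ne_zero 3 hD)]
  ring

end Fermat.Agent.Cor.Waring
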