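import Fermat.Agent.Corollaries.Waring.Basic

/-!
# Sums of cubes up to `12963` (helper56)

The natural number `mask k` has the binary digit `1` at the place `n` only if `n` is a sum of `k`
cubes. The kernel checks that all digits of `mask 6` at the places `8043 ≤ n < 12964` and all digits
of `mask 9` at the places `n < 8043` are `1`.
-/

set_option autoImplicit false

namespace Fermat.Agent.Cor.Waring

/-- One more cube: the union of the translates of the set `s` by `c ^ 3`, `c < 24`. -/
def step (s : ℕ) : ℕ := (List.range 24).foldl (fun acc c => acc ||| (s <<< (c ^ 3))) 0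

/-- The sums of `k` cubes of numbers `< 24`, as a set of binary digits. -/
def mask : ℕ → ℕ
  | 0 => 1
  | k + 1 => step (mask k)

theorem testBit_foldl (s n : ℕ) (l : List ℕ) (acc : ℕ) :
    (l.foldl (fun acc c => acc ||| (s <<< (c ^ 3))) acc).testBit n = true →
      acc.testBit n = true ∨ ∃ c, c ^ 3 ≤ n ∧ s.testBit (n - c ^ 3) = true := by
  induction l generalizing acc with
  | nil => exact fun h => Or.inl h
  | cons c l ih =>
    intro h
    rw [List.foldl_cons] at h
    rcases ih _ h with h1 | h1
    · rw [Nat.testBit_or, Bool.or_eq_true, Nat.testBit_shiftLeft, Bool.and_eq_true,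
        decide_eq_true_iff] at h1
      rcases h1 with h1 | ⟨h1, h2⟩
      · exact Or.inl h1
      · exact Or.inr ⟨c, h1, h2⟩
    · exact Or.inr h1

theorem SP_of_testBit (k : ℕ) : ∀ n, (mask k).testBit n = true → SP 3 k n := by
  induction k with
  | zero =>
    intro n h
    rw [mask, Nat.testBit_one_eq_true_iff_self_eq_zero] at h
    rw [h]
    exact SP.zero (by norm_num) 0
  | succ k ih =>
    intro n h
    rw [mask, step] at h
    rcases testBit_foldl _ _ _ _ h with h1 | ⟨c, hc, h1⟩
    · rw [Nat.zero_testBit] at h1
      exact absurd h1 (by decide)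
    · have h2 := (ih _ h1).add (SP.single 3 c)
      rwa [Nat.sub_add_cancel hc] at h2

theorem testBit_of_land {s m n : ℕ} (h : s &&& (2 ^ m - 1) = 2 ^ m - 1) (hn : n < m) :
    s.testBit n = true := by
  have h1 := congrArg (fun t => t.testBit n) h
  simp only [Nat.testBit_and, Nat.testBit_two_pow_sub_one] at h1
  simpa [hn] using h1

set_option maxRecDepth 100000 in
theorem mask_six : (mask 6 >>> 8043) &&& (2 ^ 4921 - 1) = 2 ^ 4921 - 1 := by decide +kernel

set_option maxRecDepth 100000 in
theorem mask_nine : mask 9 &&& (2 ^ 8043 - 1) = 2 ^ 8043 - 1 := by decide +kernel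

/-- The numbers `8043 ≤ n < 12964` are sums of six cubes. -/
theorem six_of_mem {n : ℕ} (h1 : 8043 ≤ n) (h2 : n < 12964) : SP 3 6 n := by
  apply SP_of_testBit
  have h3 := testBit_of_land mask_six (n := n - 8043) (by omega)
  rw [Nat.testBit_shiftRight] at h3
  rwa [Nat.add_sub_cancel' h1] at h3

/-- The numbers `n < 8043` are sums of nine cubes. -/
theorem nine_of_lt {n : ℕ} (h : n < 8043) : SP 3 9 n :=
  SP_of_testBit 9 n (testBit_of_land mask_nine h)

end Fermat.Agent.Cor.Waring
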